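/-
TR / E-side of S44, (E-ST), part 3: the `p`-torsion of the kernel of reduction is (at most) a
line on which inertia acts through the cyclotomic character.

Legendre curve `y² = x³ + a x² + b x` over a valued field with `v a = 1 = v 2`,
`v b ≤ v(p)^p`, `β² = a`.  For `Q ∈ E₁` with `p • Q = 0` the unit coordinate
`u(Q) = (1 − β z)/(1 + β z)` (helper29, `TR/FreyPeu/UMul.lean`) satisfies `u(Q)^p ∈ 1 + b A`, so
there is a unique `p`-th root of unity `w` with `v (u(Q) − w) < v p` (`Near`).  The assignment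
`Q ↦ w` is multiplicative and injective:
* `card_le`       : at most `p` such points;
* `map_eq_nsmul`  : an automorphism `σ` preserving the maximal ideal, fixing `β`, and acting on
                    `μ_p` by `μ ↦ μ^a` acts on these points by `Q ↦ a • Q`.
-/
import Mathlib
import Fermat.Agent.TR.FreyPeu.Core

set_option autoImplicit false

namespace Fermat.Agent.TR.ESide.ST

open WeierstrassCurve WeierstrassCurve.Affine
open Fermat.Agent.S05 Fermat.Agent.S05.E1 Fermat.Agent.TR.FreyPeu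

/-! ### Roots of unity and valuations -/

section Roots

variable {K : Type*} [Field K] {Γ₀ : Type*} [LinearOrderedCommGroupWithZero Γ₀]
  (v : Valuation K Γ₀)

/-- A `p`-th root of unity is a unit. -/
theorem val_root_eq_one {p : ℕ} (hp : p ≠ 0) {w : K} (hw : w ^ p = 1) : v w = 1 := by
  have h : v w ^ p = 1 := by rw [← map_pow, hw, map_one]
  exact (pow_eq_one_iff.mp h).resolve_right hp

/-- `v p ≤ v (ξ − 1)` for a nontrivial `p`-th root of unity `ξ`. -/
theorem val_p_le_val_sub_one {p : ℕ} (hp : p ≠ 0) {ξ : K} (hξ : ξ ^ p = 1) (hξ1 : ξ ≠ 1) :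
    v (p : K) ≤ v (ξ - 1) := by
  have hsum : ∑ i ∈ Finset.range p, ξ ^ i = 0 := by
    have h := geom_sum_mul ξ p
    rw [hξ, sub_self] at h
    exact (mul_eq_zero.1 h).resolve_right (sub_ne_zero.2 hξ1)
  have hp' : (p : K) = ∑ i ∈ Finset.range p, (1 - ξ ^ i) := by
    rw [Finset.sum_sub_distrib, hsum, sub_zero, Finset.sum_const, Finset.card_range,
      nsmul_eq_mul, mul_one]
  rw [hp']
  refine v.map_sum_le fun i _ => ?_
  have e : 1 - ξ ^ i = -((∑ j ∈ Finset.range i, ξ ^ j) * (ξ - 1)) := by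
    rw [geom_sum_mul]; ring
  have hξv : v ξ = 1 := val_root_eq_one v hp hξ
  have hs : v (∑ j ∈ Finset.range i, ξ ^ j) ≤ 1 :=
    v.map_sum_le fun j _ => by rw [map_pow, hξv, one_pow]
  rw [e, Valuation.map_neg, map_mul]
  calc v (∑ j ∈ Finset.range i, ξ ^ j) * v (ξ - 1) ≤ 1 * v (ξ - 1) := mul_le_mul' hs le_rfl
    _ = v (ξ - 1) := one_mul _

/-- Two `p`-th roots of unity closer than `v p` are equal. -/
theorem root_eq_of_close {p : ℕ} (hp : p ≠ 0) {w w' : K} (hw : w ^ p = 1) (hw' : w' ^ p = 1)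
    (h : v (w - w') < v (p : K)) : w = w' := by
  by_contra hne
  have hw'0 : w' ≠ 0 := by
    rintro rfl
    rw [zero_pow hp] at hw'
    exact zero_ne_one hw'
  have hξ : (w / w') ^ p = 1 := by rw [div_pow, hw, hw', div_one]
  have hξ1 : w / w' ≠ 1 := fun h1 => hne ((div_eq_one_iff_eq hw'0).1 h1)
  have h1 := val_p_le_val_sub_one v hp hξ hξ1
  have e : w / w' - 1 = (w - w') / w' := by field_simp
  rw [e, map_div₀, val_root_eq_one v hp hw', div_one] at h1
  exact absurd h (not_lt.2 h1)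

end Roots

/-! ### The root of unity attached to a torsion point of the kernel of reduction -/

section Near

variable {K : Type*} [Field K] (A : ValuationSubring K) {W : Affine K}

/-- Standing hypotheses on the Legendre curve `W`, the square root `β` of `a₂` and the prime
`p`. -/
structure Hyp (W : Affine K) (β : K) (p : ℕ) : Prop where
  leg : IsLeg W
  h₂ : W.a₂ ∈ A
  h₄ : W.a₄ ∈ A
  v2 : A.valuation (2 : K) = 1
  hβ : β ^ 2 = W.a₂
  vβ : A.valuation β = 1
  hp : p.Prime
  vp : A.valuation (p : K) < 1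
  p0 : (p : K) ≠ 0
  hbp : A.valuation W.a₄ ≤ A.valuation (p : K) ^ p

/-- `w` is a `p`-th root of unity close to the unit coordinate of `Q`. -/
def Near (β : K) (p : ℕ) (Q : W.Point) (w : K) : Prop :=
  w ^ p = 1 ∧ A.valuation (uCoord β Q - w) < A.valuation (p : K)

variable {A} {β : K} {p : ℕ}

theorem Hyp.vp_pos (H : Hyp A W β p) : 0 < A.valuation (p : K) :=
  zero_lt_iff.mpr ((Valuation.ne_zero_iff _).mpr H.p0)

theorem Hyp.vb_lt (H : Hyp A W β p) : A.valuation W.a₄ < A.valuation (p : K) := by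
  refine lt_of_le_of_lt H.hbp ?_
  calc A.valuation (p : K) ^ p ≤ A.valuation (p : K) ^ 2 :=
        pow_le_pow_of_le_one zero_le H.vp.le H.hp.two_le
    _ = A.valuation (p : K) * A.valuation (p : K) := sq _
    _ < A.valuation (p : K) * 1 := mul_lt_mul_of_pos_left H.vp H.vp_pos
    _ = A.valuation (p : K) := mul_one _

theorem near_zero (H : Hyp A W β p) : Near A β p (0 : W.Point) 1 := by
  refine ⟨one_pow p, ?_⟩
  rw [uCoord_zero, sub_self, map_zero]
  exact H.vp_pos

theorem Near.unique (H : Hyp A W β p) {Q : W.Point} {w w' : K} (h : Near A β p Q w)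
    (h' : Near A β p Q w') : w = w' := by
  refine root_eq_of_close A.valuation H.hp.ne_zero h.1 h'.1 ?_
  have e : w - w' = (uCoord β Q - w') - (uCoord β Q - w) := by ring
  rw [e]
  exact A.valuation.map_sub_lt h'.2 h.2

variable [DecidableEq K]

theorem Near.add (H : Hyp A W β p) {Q Q' : W.Point} {w w' : K} (hQ : InKer A Q)
    (hQ' : InKer A Q') (h : Near A β p Q w) (h' : Near A β p Q' w') :
    Near A β p (Q + Q') (w * w') := by
  refine ⟨by rw [mul_pow, h.1, h'.1, one_mul], ?_⟩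
  obtain ⟨c, hc, hadd⟩ := u_add A H.leg.a₁ H.leg.a₃ H.leg.a₆ H.h₂ H.h₄ H.hβ hQ hQ'
  have hz := zCoord_val_lt_one A H.leg.a₁ H.leg.a₃ H.leg.a₆ H.h₂ H.h₄ hQ
  have hz' := zCoord_val_lt_one A H.leg.a₁ H.leg.a₃ H.leg.a₆ H.h₂ H.h₄ hQ'
  have hu := (uCoord_units A H.leg.a₁ H.leg.a₃ H.leg.a₆ H.h₂ H.h₄ H.hβ hQ).2.2
  have hw' : A.valuation w' = 1 := val_root_eq_one A.valuation H.hp.ne_zero h'.1
  have e : uCoord β (Q + Q') - w * w'
      = W.a₄ * zCoord Q * zCoord Q' * c + (uCoord β Q * (uCoord β Q' - w')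
        + (uCoord β Q - w) * w') := by
    linear_combination hadd
  rw [e]
  refine A.valuation.map_add_lt ?_ (A.valuation.map_add_lt ?_ ?_)
  · refine lt_of_le_of_lt ?_ H.vb_lt
    rw [map_mul, map_mul, map_mul]
    calc A.valuation W.a₄ * A.valuation (zCoord Q) * A.valuation (zCoord Q') * A.valuation c
        ≤ A.valuation W.a₄ * 1 * 1 * 1 :=
          mul_le_mul' (mul_le_mul' (mul_le_mul' le_rfl hz.le) hz'.le)
            ((A.valuation_le_one_iff c).mpr hc)
      _ = A.valuation W.a₄ := by rw [mul_one, mul_one, mul_one]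
  · rw [map_mul, hu, one_mul]
    exact h'.2
  · rw [map_mul, hw', mul_one]
    exact h.2

theorem Near.nsmul (H : Hyp A W β p) {Q : W.Point} {w : K} (hQ : InKer A Q)
    (h : Near A β p Q w) (a : ℕ) : Near A β p (a • Q) (w ^ a) := by
  induction a with
  | zero =>
    rw [zero_smul, pow_zero]
    exact near_zero H
  | succ a ih =>
    rw [succ_nsmul, pow_succ]
    exact ih.add H (ker_nsmul A H.leg.a₁ H.leg.a₃ H.leg.a₆ H.h₂ H.h₄ hQ a).1 hQ h

/-- Existence of the root of unity. -/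
theorem exists_near [IsAlgClosed K] (H : Hyp A W β p) {Q : W.Point} (hQ : InKer A Q)
    (hpQ : p • Q = 0) : ∃ w : K, Near A β p Q w := by
  obtain ⟨c, hc, h1⟩ := u_nsmul A H.leg.a₁ H.leg.a₃ H.leg.a₆ H.h₂ H.h₄ H.hβ hQ p
  rw [hpQ, uCoord_zero] at h1
  have hz := zCoord_val_lt_one A H.leg.a₁ H.leg.a₃ H.leg.a₆ H.h₂ H.h₄ hQ
  have hroot : A.valuation (uCoord β Q ^ p - 1) < A.valuation (p : K) ^ p := by
    have e : uCoord β Q ^ p - 1 = -(W.a₄ * zCoord Q ^ 2 * c) := by linear_combination -h1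
    rw [e, Valuation.map_neg, map_mul, map_mul, map_pow]
    have hz2 : A.valuation (zCoord Q) ^ 2 < 1 := pow_lt_one₀ zero_le hz two_ne_zero
    calc A.valuation W.a₄ * A.valuation (zCoord Q) ^ 2 * A.valuation c
        ≤ A.valuation (p : K) ^ p * A.valuation (zCoord Q) ^ 2 * 1 :=
          mul_le_mul' (mul_le_mul' H.hbp le_rfl) ((A.valuation_le_one_iff c).mpr hc)
      _ = A.valuation (p : K) ^ p * A.valuation (zCoord Q) ^ 2 := mul_one _
      _ < A.valuation (p : K) ^ p * 1 := mul_lt_mul_of_pos_left hz2 (pow_pos H.vp_pos p)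
      _ = A.valuation (p : K) ^ p := mul_one _
  obtain ⟨w, hw, hwc⟩ := exists_root_close A.valuation H.hp.ne_zero (uCoord β Q) 1
    (A.valuation (p : K)) hroot
  exact ⟨w, hw, hwc⟩

/-- The kernel: a torsion point whose unit coordinate is close to `1` is zero. -/
theorem eq_zero_of_near_one (H : Hyp A W β p) {Q : W.Point} (hQ : InKer A Q)
    (hpQ : p • Q = 0) (h : Near A β p Q 1) : Q = 0 := by
  obtain ⟨-, c', hc', h3⟩ := ker_nsmul A H.leg.a₁ H.leg.a₃ H.leg.a₆ H.h₂ H.h₄ hQ p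
  rw [hpQ, zCoord_zero] at h3
  have huQ := uCoord_units A H.leg.a₁ H.leg.a₃ H.leg.a₆ H.h₂ H.h₄ H.hβ hQ
  have hsub := uCoord_sub_one A H.leg.a₁ H.leg.a₃ H.leg.a₆ H.h₂ H.h₄ H.hβ hQ
  have h7 : A.valuation (zCoord Q) < A.valuation (p : K) := by
    have e := congrArg A.valuation hsub
    rw [map_mul, huQ.2.1, mul_one, map_mul, map_mul, Valuation.map_neg, H.v2, H.vβ, one_mul,
      one_mul] at e
    rw [← e]
    exact h.2
  have hz0 : zCoord Q = 0 := by
    by_contra hne
    have e : (p : K) = -(zCoord Q * c') := by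
      have h8 : zCoord Q * ((p : K) + zCoord Q * c') = 0 := by linear_combination -h3
      have h9 := (mul_eq_zero.mp h8).resolve_left hne
      linear_combination h9
    have h10 : A.valuation (p : K) ≤ A.valuation (zCoord Q) := by
      conv_lhs => rw [e]
      rw [Valuation.map_neg, map_mul]
      calc A.valuation (zCoord Q) * A.valuation c' ≤ A.valuation (zCoord Q) * 1 :=
            mul_le_mul' le_rfl ((A.valuation_le_one_iff c').mpr hc')
        _ = A.valuation (zCoord Q) := mul_one _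
    exact absurd h7 (not_lt.mpr h10)
  exact eq_zero_of_zCoord_eq_zero A H.leg.a₁ H.leg.a₃ H.leg.a₆ H.h₂ H.h₄ hQ hz0

/-- Injectivity of `Q ↦ w`. -/
theorem eq_of_near [IsAlgClosed K] (H : Hyp A W β p) {Q Q' : W.Point} {w : K}
    (hQ : InKer A Q) (hQ' : InKer A Q') (hpQ : p • Q = 0) (hpQ' : p • Q' = 0)
    (h : Near A β p Q w) (h' : Near A β p Q' w) : Q = Q' := by
  have hnQ' : InKer A (-Q') := inKer_neg A hQ'
  have hpn : p • (-Q') = 0 := by rw [smul_neg, hpQ', neg_zero]
  obtain ⟨w'', hw''⟩ := exists_near H hnQ' hpn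
  have h0 := h'.add H hQ' hnQ' hw''
  rw [add_neg_cancel] at h0
  have hww : w * w'' = 1 := h0.unique H (near_zero H)
  have h1 := h.add H hQ hnQ' hw''
  rw [hww, ← sub_eq_add_neg] at h1
  have hsub : InKer A (Q - Q') := by
    rw [sub_eq_add_neg]
    exact inKer_add A H.leg.a₁ H.leg.a₃ H.leg.a₆ H.h₂ H.h₄ hQ hnQ'
  have hps : p • (Q - Q') = 0 := by rw [smul_sub, hpQ, hpQ', sub_zero]
  exact sub_eq_zero.1 (eq_zero_of_near_one H hsub hps h1)

/-- **At most `p` torsion points in the kernel of reduction.** -/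
theorem card_le [IsAlgClosed K] (H : Hyp A W β p) (T : Finset W.Point)
    (hT : ∀ Q ∈ T, InKer A Q ∧ p • Q = 0) : T.card ≤ p := by
  classical
  have hex : ∀ Q : W.Point, ∃ w : K, Q ∈ T → Near A β p Q w := by
    intro Q
    by_cases hQ : Q ∈ T
    · obtain ⟨w, hw⟩ := exists_near H (hT Q hQ).1 (hT Q hQ).2
      exact ⟨w, fun _ => hw⟩
    · exact ⟨0, fun h => absurd h hQ⟩
  choose f hf using hex
  have hmaps : ∀ Q ∈ T, f Q ∈ Polynomial.nthRootsFinset p (1 : K) := fun Q hQ =>
    (Polynomial.mem_nthRootsFinset H.hp.pos (1 : K)).2 (hf Q hQ).1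
  have hinj : Set.InjOn f (T : Set W.Point) := by
    intro Q hQ Q' hQ' hff
    have hQ1 := Finset.mem_coe.1 hQ
    have hQ1' := Finset.mem_coe.1 hQ'
    have h1 := hf Q hQ1
    have h2 := hf Q' hQ1'
    rw [← hff] at h2
    exact eq_of_near H (hT Q hQ1).1 (hT Q' hQ1').1 (hT Q hQ1).2 (hT Q' hQ1').2 h1 h2
  calc T.card ≤ (Polynomial.nthRootsFinset p (1 : K)).card :=
        Finset.card_le_card_of_injOn f hmaps hinj
    _ ≤ p := by
      rw [Polynomial.nthRootsFinset_def]
      exact (Multiset.toFinset_card_le _).trans (Polynomial.card_nthRoots p 1)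

end Near

/-! ### The Galois action -/

section Galois

variable {F K : Type*} [Field F] [Field K] [Algebra F K] [DecidableEq K] [IsAlgClosed K]
  {A : ValuationSubring K} (W₀ : Affine F) {β : K} {p : ℕ}

/-- **Inertia acts on the torsion of the kernel of reduction through the cyclotomic
character.** -/
theorem map_eq_nsmul (H : Hyp A (W₀⁄K) β p) (σ : K ≃ₐ[F] K)
    (hσ : ∀ x : K, A.valuation x < 1 → A.valuation (σ x) < 1) (hσβ : σ β = β) (a : ℕ)
    (ha : ∀ μ : K, μ ^ p = 1 → σ μ = μ ^ a) {Q : (W₀⁄K).Point} (hQ : InKer A Q)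
    (hpQ : p • Q = 0) : Point.map (W' := W₀) σ.toAlgHom Q = a • Q := by
  obtain ⟨w, hw⟩ := exists_near H hQ hpQ
  have hσQ : InKer A (Point.map (W' := W₀) σ.toAlgHom Q) := inKer_map W₀ A σ hσ hQ
  have hpσQ : p • Point.map (W' := W₀) σ.toAlgHom Q = 0 := by
    rw [← map_nsmul, hpQ, map_zero]
  have haQ : InKer A (a • Q) :=
    (ker_nsmul A H.leg.a₁ H.leg.a₃ H.leg.a₆ H.h₂ H.h₄ hQ a).1
  have hpaQ : p • (a • Q) = 0 := by rw [smul_comm, hpQ, smul_zero]
  have h1 : Near A β p (a • Q) (w ^ a) := hw.nsmul H hQ a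
  have h2 : Near A β p (Point.map (W' := W₀) σ.toAlgHom Q) (w ^ a) := by
    refine ⟨h1.1, ?_⟩
    rw [uCoord_map W₀ σ hσβ Q, ← ha w hw.1, ← map_sub]
    -- `σ` contracts elements below `v p`
    have e : uCoord β Q - w = (p : K) * ((uCoord β Q - w) / (p : K)) := by
      have := H.p0
      field_simp
    have hq : A.valuation ((uCoord β Q - w) / (p : K)) < 1 := by
      rw [map_div₀]; exact (div_lt_one₀ H.vp_pos).mpr hw.2
    rw [e, map_mul, map_natCast, map_mul]
    calc A.valuation (p : K) * A.valuation (σ ((uCoord β Q - w) / (p : K)))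
        < A.valuation (p : K) * 1 := mul_lt_mul_of_pos_left (hσ _ hq) H.vp_pos
      _ = A.valuation (p : K) := mul_one _
  exact eq_of_near H hσQ haQ hpσQ hpaQ h2 h1

end Galois

end Fermat.Agent.TR.ESide.ST
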