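/-
TR / E-side of S44, (E-ST), brick (E0), part 1: the unit character on the points with
nonsingular reduction of a Legendre curve `y² = x³ + a x² + b x` with `v a = 1 = v 2`, `v b < 1`.

For `β² = a` put `U(P) = (y − β x)/(y + β x)` (`U(O) = 1`).  On the points of type `Z`
(`O`, or `1 ≤ v x`):
* `uZ_add`   : `Z` is closed under addition and `v (U(P + Q) − U(P) U(Q)) < 1`
               (from the Vieta identities `∏ (yᵢ ∓ β xᵢ) = n (n² + b (l ∓ β)²)`);
* `uZ_sub_one_lt_iff` : `v (U(P) − 1) < 1` iff `P` lies in the kernel of reduction;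
* `inE1_of_isZ_of_nsmul` : a point of type `Z` killed by a prime `p` with `v p < 1` lies in the
  kernel of reduction (the smooth locus of the special fibre has no `p`-torsion).
-/
import Mathlib
import Fermat.Agent.S05.ClsHom

set_option autoImplicit false

namespace Fermat.Agent.TR.ESide.ST

open Fermat.Agent.S05 WeierstrassCurve WeierstrassCurve.Affine

variable {K : Type*} [Field K] {Γ₀ : Type*} [LinearOrderedCommGroupWithZero Γ₀]
variable (v : Valuation K Γ₀)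

/-! ### The Vieta identities -/

section Vieta

variable {a b x₁ y₁ x₂ y₂ x₃ y₃ l n β : K}

theorem vieta_prod_sub (h : Vieta a b x₁ y₁ x₂ y₂ x₃ y₃ l n) (hβ : β ^ 2 = a) :
    (y₁ - β * x₁) * (y₂ - β * x₂) * (y₃ + β * x₃) = -(n * (n ^ 2 + b * (l - β) ^ 2)) := by
  have h1 := h.line₁; have h2 := h.line₂; have h3 := h.line₃
  have e1 := h.e₁; have e2 := h.e₂; have e3 := h.e₃
  have hy3 : y₃ = -(l * x₃ + n) := by linear_combination -h3
  subst h1 h2 hy3
  linear_combination -((l - β) ^ 3) * e3 - (l - β) ^ 2 * n * e2 - (l - β) * n ^ 2 * e1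
    - n ^ 2 * (l - β) * hβ

theorem vieta_prod_add (h : Vieta a b x₁ y₁ x₂ y₂ x₃ y₃ l n) (hβ : β ^ 2 = a) :
    (y₁ + β * x₁) * (y₂ + β * x₂) * (y₃ - β * x₃) = -(n * (n ^ 2 + b * (l + β) ^ 2)) := by
  have h1 := h.line₁; have h2 := h.line₂; have h3 := h.line₃
  have e1 := h.e₁; have e2 := h.e₂; have e3 := h.e₃
  have hy3 : y₃ = -(l * x₃ + n) := by linear_combination -h3
  subst h1 h2 hy3
  linear_combination -((l + β) ^ 3) * e3 - (l + β) ^ 2 * n * e2 - (l + β) * n ^ 2 * e1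
    - n ^ 2 * (l + β) * hβ

end Vieta

/-! ### Valuation bounds on triples of type `Z` -/

section Bounds

variable {a b x₁ y₁ x₂ y₂ x₃ y₃ l n β : K}

theorem vieta_Z_bounds (h : Vieta a b x₁ y₁ x₂ y₂ x₃ y₃ l n) (ha : v a ≤ 1)
    (hx₁ : 1 ≤ v x₁) (hx₂ : 1 ≤ v x₂) (hx₃ : 1 ≤ v x₃) : 1 ≤ v n ∧ v l ≤ v n := by
  have hn2 : v n ^ 2 = v x₁ * v x₂ * v x₃ := by
    rw [← map_pow, ← h.e₃, map_mul, map_mul]
  have hprod : 1 ≤ v x₁ * v x₂ * v x₃ := Left.one_le_mul (Left.one_le_mul hx₁ hx₂) hx₃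
  have hn1 : 1 ≤ v n := by
    by_contra hcon
    have h1 : v n ^ 2 < 1 := by
      rw [pow_two]; exact mul_lt_one' (not_le.mp hcon) (not_le.mp hcon)
    rw [hn2] at h1
    exact absurd hprod (not_le.mpr h1)
  refine ⟨hn1, ?_⟩
  have hX₁ : v x₁ ≤ v x₁ * v x₂ * v x₃ := by
    calc v x₁ = v x₁ * 1 * 1 := by rw [mul_one, mul_one]
      _ ≤ v x₁ * v x₂ * v x₃ := mul_le_mul' (mul_le_mul' le_rfl hx₂) hx₃
  have hX₂ : v x₂ ≤ v x₁ * v x₂ * v x₃ := by
    calc v x₂ = 1 * v x₂ * 1 := by rw [one_mul, mul_one]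
      _ ≤ v x₁ * v x₂ * v x₃ := mul_le_mul' (mul_le_mul' hx₁ le_rfl) hx₃
  have hX₃ : v x₃ ≤ v x₁ * v x₂ * v x₃ := by
    calc v x₃ = 1 * 1 * v x₃ := by rw [one_mul, one_mul]
      _ ≤ v x₁ * v x₂ * v x₃ := mul_le_mul' (mul_le_mul' hx₁ hx₂) le_rfl
  have hl2 : l ^ 2 = x₁ + x₂ + x₃ + a := by linear_combination -h.e₁
  have hvl2 : v l ^ 2 ≤ v n ^ 2 := by
    rw [← map_pow, hl2, hn2]
    exact v.map_add_le (v.map_add_le (v.map_add_le hX₁ hX₂) hX₃) (ha.trans hprod)
  exact (pow_le_pow_iff_left₀ zero_le zero_le two_ne_zero).1 hvl2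

/-- The two denominators `n² + b (l ∓ β)²` have valuation `v n ²`, and their difference is
smaller. -/
theorem vieta_Z_ratio (h : Vieta a b x₁ y₁ x₂ y₂ x₃ y₃ l n) (hβ : β ^ 2 = a) (ha : v a = 1)
    (hb : v b < 1) (hx₁ : 1 ≤ v x₁) (hx₂ : 1 ≤ v x₂) (hx₃ : 1 ≤ v x₃) :
    v (n ^ 2 + b * (l - β) ^ 2) = v n ^ 2 ∧
      v ((n ^ 2 + b * (l + β) ^ 2) - (n ^ 2 + b * (l - β) ^ 2)) < v n ^ 2 := by
  obtain ⟨hn1, hln⟩ := vieta_Z_bounds v h ha.le hx₁ hx₂ hx₃
  have hvβ : v β = 1 := ClsZS.v_beta v ha hβ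
  have hn0 : 0 < v n := lt_of_lt_of_le zero_lt_one hn1
  have hn20 : 0 < v n ^ 2 := pow_pos hn0 2
  have hlβ : v (l - β) ≤ v n := v.map_sub_le hln (hvβ.le.trans hn1)
  have h1 : v (b * (l - β) ^ 2) < v n ^ 2 := by
    rw [map_mul, map_pow]
    calc v b * v (l - β) ^ 2 ≤ v b * v n ^ 2 := mul_le_mul' le_rfl (pow_le_pow_left' hlβ 2)
      _ < 1 * v n ^ 2 := mul_lt_mul_of_pos_right hb hn20
      _ = v n ^ 2 := one_mul _
  refine ⟨?_, ?_⟩
  · rw [v.map_add_eq_of_lt_left (by rw [map_pow]; exact h1), map_pow]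
  · have e : (n ^ 2 + b * (l + β) ^ 2) - (n ^ 2 + b * (l - β) ^ 2) = 4 * b * β * l := by ring
    have h4 : v (4 : K) ≤ 1 := by
      have e4 : (4 : K) = 1 + 1 + 1 + 1 := by norm_num
      have h11 : v (1 : K) ≤ 1 := (map_one v).le
      rw [e4]
      exact v.map_add_le (v.map_add_le (v.map_add_le h11 h11) h11) h11
    rw [e, map_mul, map_mul, map_mul, hvβ, mul_one]
    calc v 4 * v b * v l ≤ 1 * v b * v n := mul_le_mul' (mul_le_mul' h4 le_rfl) hln
      _ = v b * v n := by rw [one_mul]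
      _ < 1 * v n := mul_lt_mul_of_pos_right hb hn0
      _ = v n := one_mul _
      _ ≤ v n * v n := le_mul_of_one_le_right' hn1
      _ = v n ^ 2 := (pow_two _).symm

end Bounds

/-! ### One point of type `Z` -/

section OnePoint

variable {a b x y β : K}

theorem legEq_prod (hL : LegEq a b x y) (hβ : β ^ 2 = a) :
    (y - β * x) * (y + β * x) = x * (x ^ 2 + b) := by
  unfold LegEq at hL
  rw [← hβ] at hL
  linear_combination hL

/-- For a point with `1 ≤ v x`: `y − β x` and `y + β x` have the same nonzero valuation, which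
exceeds `v x` exactly when `1 < v x`. -/
theorem val_pm (hL : LegEq a b x y) (hβ : β ^ 2 = a) (ha : v a = 1) (h2 : v 2 = 1)
    (hb : v b < 1) (hx : 1 ≤ v x) :
    v (y - β * x) = v (y + β * x) ∧ v (y + β * x) ≠ 0 ∧ (v x < v (y + β * x) ↔ 1 < v x) := by
  have hvβ : v β = 1 := ClsZS.v_beta v ha hβ
  have hx0 : 0 < v x := lt_of_lt_of_le zero_lt_one hx
  have hx2 : 1 ≤ v x ^ 2 := one_le_pow₀ hx
  have hxb : v (x ^ 2 + b) = v x ^ 2 := by
    rw [v.map_add_eq_of_lt_left (by rw [map_pow]; exact lt_of_lt_of_le hb hx2), map_pow]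
  have hprod : v (y - β * x) * v (y + β * x) = v x ^ 3 := by
    rw [← map_mul, legEq_prod hL hβ, map_mul, hxb, ← pow_succ']
  have hdiff : v (2 * β * x) = v x := by
    rw [map_mul, map_mul, h2, hvβ, one_mul, one_mul]
  have hQP : v x < v (y + β * x) → v (y - β * x) = v (y + β * x) := by
    intro hlt
    have e : y - β * x = (y + β * x) - 2 * β * x := by ring
    rw [e]
    exact v.map_sub_eq_of_lt_left (by rw [hdiff]; exact hlt)
  have hPQ : v x < v (y - β * x) → v (y + β * x) = v (y - β * x) := by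
    intro hlt
    have e : y + β * x = (y - β * x) + 2 * β * x := by ring
    rw [e]
    exact v.map_add_eq_of_lt_left (by rw [hdiff]; exact hlt)
  -- if neither exceeds `v x` then `v x = 1` and both are `1`
  have hC : ¬ v x < v (y + β * x) → ¬ v x < v (y - β * x) →
      v x = 1 ∧ v (y - β * x) = 1 ∧ v (y + β * x) = 1 := by
    intro hQ hP
    have hQ' := not_lt.mp hQ
    have hP' := not_lt.mp hP
    have h3 : v x ^ 2 * v x ≤ v x ^ 2 * 1 := by
      rw [← pow_succ, ← hprod, mul_one, pow_two]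
      exact mul_le_mul' hP' hQ'
    have hX1 : v x = 1 := le_antisymm (le_of_mul_le_mul_left h3 (pow_pos hx0 2)) hx
    rw [hX1] at hP' hQ'
    rw [hX1, one_pow] at hprod
    have hP1 : v (y - β * x) = 1 := by
      refine le_antisymm hP' (not_lt.mp fun hlt => ?_)
      have : v (y - β * x) * v (y + β * x) < 1 :=
        lt_of_le_of_lt (mul_le_mul' le_rfl hQ') (by rwa [mul_one])
      rw [hprod] at this
      exact lt_irrefl _ this
    refine ⟨hX1, hP1, ?_⟩
    rw [hP1, one_mul] at hprod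
    exact hprod
  have hQ0 : v (y + β * x) ≠ 0 := by
    intro h0
    rw [h0, mul_zero] at hprod
    exact (pow_pos hx0 3).ne hprod
  have hEq : v (y - β * x) = v (y + β * x) := by
    by_cases hQ : v x < v (y + β * x)
    · exact hQP hQ
    · by_cases hP : v x < v (y - β * x)
      · exact (hPQ hP).symm
      · obtain ⟨-, h1, h1'⟩ := hC hQ hP
        rw [h1, h1']
  refine ⟨hEq, hQ0, ?_, ?_⟩
  · intro hQ
    by_contra hcon
    have hX1 : v x = 1 := le_antisymm (not_lt.mp hcon) hx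
    rw [hEq, hX1, one_pow, ← pow_two] at hprod
    have h1 : v (y + β * x) = 1 := by
      have := (pow_left_inj₀ (zero_le (a := v (y + β * x))) (zero_le (a := (1 : Γ₀)))
        two_ne_zero).1 (by rw [hprod, one_pow])
      exact this
    rw [hX1, h1] at hQ
    exact lt_irrefl _ hQ
  · intro hX
    by_contra hQ
    by_cases hP : v x < v (y - β * x)
    · exact hQ (by rw [← hEq]; exact hP)
    · exact absurd (hC hQ hP).1 hX.ne'

end OnePoint

/-! ### The character on points -/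

section Points

variable {W : Affine K}

/-- Type `Z`: the point at infinity, or an affine point with `1 ≤ v x`. -/
def IsZ : W.Point → Prop
  | .zero => True
  | .some x _ _ => 1 ≤ v x

/-- The unit character `U(x, y) = (y − β x)/(y + β x)`, `U(O) = 1`. -/
noncomputable def uZ (β : K) : W.Point → K
  | .zero => 1
  | .some x y _ => (y - β * x) / (y + β * x)

theorem uZ_zero (β : K) : uZ β (0 : W.Point) = 1 := rfl

theorem isZ_zero : IsZ v (0 : W.Point) := trivial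

theorem uZ_some (β : K) {x y : K} (h : W.Nonsingular x y) :
    uZ β (Point.some x y h) = (y - β * x) / (y + β * x) := rfl

theorem isZ_some {x y : K} (h : W.Nonsingular x y) : IsZ v (Point.some x y h) ↔ 1 ≤ v x :=
  Iff.rfl

variable {β : K}

/-- `U` is a unit on `Z`. -/
theorem uZ_val (hW : IsLeg W) (ha : v W.a₂ = 1) (h2 : v 2 = 1) (hb : v W.a₄ < 1)
    (hβ : β ^ 2 = W.a₂) {P : W.Point} (hP : IsZ v P) : v (uZ β P) = 1 := by
  match P, hP with
  | .zero, _ => exact map_one v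
  | .some x y h, hP =>
    obtain ⟨h1, h0, -⟩ := val_pm v ((hW.equation_iff x y).1 h.1) hβ ha h2 hb hP
    show v ((y - β * x) / (y + β * x)) = 1
    rw [map_div₀, h1, div_self h0]

/-- `v (U(P) − 1) < 1` iff `P` is in the kernel of reduction. -/
theorem uZ_sub_one_lt_iff (hW : IsLeg W) (ha : v W.a₂ = 1) (h2 : v 2 = 1) (hb : v W.a₄ < 1)
    (hβ : β ^ 2 = W.a₂) {x y : K} (h : W.Nonsingular x y) (hx : 1 ≤ v x) :
    v (uZ β (Point.some x y h) - 1) < 1 ↔ 1 < v x := by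
  obtain ⟨-, h0, hiff⟩ := val_pm v ((hW.equation_iff x y).1 h.1) hβ ha h2 hb hx
  have hvβ : v β = 1 := ClsZS.v_beta v ha hβ
  have hp0 : y + β * x ≠ 0 := (Valuation.ne_zero_iff v).1 h0
  have e : uZ β (Point.some x y h) - 1 = -(2 * β * x) / (y + β * x) := by
    rw [uZ_some]
    field_simp
    ring
  rw [e, map_div₀, Valuation.map_neg, map_mul, map_mul, h2, hvβ, one_mul, one_mul,
    div_lt_one₀ (zero_lt_iff.2 h0)]
  exact hiff

variable [DecidableEq K]

/-- **`Z` is a subgroup and `U` is multiplicative on it modulo the maximal ideal.** -/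
theorem uZ_add (hW : IsLeg W) (ha : v W.a₂ = 1) (h2 : v 2 = 1) (hb : v W.a₄ < 1)
    (hβ : β ^ 2 = W.a₂) {P Q : W.Point} (hP : IsZ v P) (hQ : IsZ v Q) :
    IsZ v (P + Q) ∧ v (uZ β (P + Q) - uZ β P * uZ β Q) < 1 := by
  match P, Q, hP, hQ with
  | .zero, Q, _, hQ =>
    have e : (Point.zero : W.Point) + Q = Q := zero_add Q
    rw [e]
    refine ⟨hQ, ?_⟩
    have e1 : uZ β (Point.zero : W.Point) = 1 := rfl
    rw [e1, one_mul, sub_self, map_zero]
    exact zero_lt_one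
  | .some x₁ y₁ h₁, .zero, hP, _ =>
    have e : Point.some x₁ y₁ h₁ + (Point.zero : W.Point) = Point.some x₁ y₁ h₁ := add_zero _
    rw [e]
    refine ⟨hP, ?_⟩
    have e1 : uZ β (Point.zero : W.Point) = 1 := rfl
    rw [e1, mul_one, sub_self, map_zero]
    exact zero_lt_one
  | .some x₁ y₁ h₁, .some x₂ y₂ h₂, hP, hQ =>
    have hx₁ : 1 ≤ v x₁ := hP
    have hx₂ : 1 ≤ v x₂ := hQ
    have hL₁ := (hW.equation_iff x₁ y₁).1 h₁.1
    have hL₂ := (hW.equation_iff x₂ y₂).1 h₂.1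
    obtain ⟨hm₁, hp₁, -⟩ := val_pm v hL₁ hβ ha h2 hb hx₁
    obtain ⟨hm₂, hp₂, -⟩ := val_pm v hL₂ hβ ha h2 hb hx₂
    have hp₁' : y₁ + β * x₁ ≠ 0 := (Valuation.ne_zero_iff v).1 hp₁
    have hp₂' : y₂ + β * x₂ ≠ 0 := (Valuation.ne_zero_iff v).1 hp₂
    have hm₂' : y₂ - β * x₂ ≠ 0 := (Valuation.ne_zero_iff v).1 (by rw [hm₂]; exact hp₂)
    by_cases hne : x₁ = x₂ ∧ y₁ = -y₂
    · obtain ⟨rfl, rfl⟩ := hne
      rw [add_comm, hW.add_neg_eq_zero h₂ h₁]
      refine ⟨trivial, ?_⟩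
      have e : uZ β (0 : W.Point) - uZ β (Point.some x₁ (-y₂) h₁) * uZ β (Point.some x₁ y₂ h₂)
          = 0 := by
        rw [uZ_zero, uZ_some, uZ_some]
        have hm₁' : -y₂ + β * x₁ ≠ 0 := by
          intro h0
          apply hm₂'
          linear_combination -h0
        field_simp
        ring
      rw [e, map_zero]
      exact zero_lt_one
    · obtain ⟨l, n, x₃, y₃, h₃, hadd, hV⟩ := hW.add_vieta h₁ h₂ hne
      have hx₃ : 1 ≤ v x₃ := vieta_Z_add_Z v ha.le hb hV hL₁ hL₂ hx₁ hx₂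
      have hL₃ := (hW.equation_iff x₃ y₃).1 h₃.1
      obtain ⟨hm₃, hp₃, -⟩ := val_pm v hL₃ hβ ha h2 hb hx₃
      have hp₃' : y₃ + β * x₃ ≠ 0 := (Valuation.ne_zero_iff v).1 hp₃
      rw [hadd]
      refine ⟨hx₃, ?_⟩
      obtain ⟨hDm, hDd⟩ := vieta_Z_ratio v hV hβ ha hb hx₁ hx₂ hx₃
      obtain ⟨hn1, -⟩ := vieta_Z_bounds v hV ha.le hx₁ hx₂ hx₃
      have hn20 : 0 < v n ^ 2 := pow_pos (lt_of_lt_of_le zero_lt_one hn1) 2
      have I1 := vieta_prod_sub hV hβ
      have I2 := vieta_prod_add hV hβ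
      have key : ((y₃ - β * x₃) * (y₁ + β * x₁) * (y₂ + β * x₂)
            - (y₁ - β * x₁) * (y₂ - β * x₂) * (y₃ + β * x₃)) * (n ^ 2 + W.a₄ * (l - β) ^ 2)
          = (y₁ - β * x₁) * (y₂ - β * x₂) * (y₃ + β * x₃)
            * ((n ^ 2 + W.a₄ * (l + β) ^ 2) - (n ^ 2 + W.a₄ * (l - β) ^ 2)) := by
        linear_combination (n ^ 2 + W.a₄ * (l - β) ^ 2) * I2
          - (n ^ 2 + W.a₄ * (l + β) ^ 2) * I1
      have hprod0 : 0 < v (y₁ + β * x₁) * v (y₂ + β * x₂) * v (y₃ + β * x₃) :=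
        mul_pos (mul_pos (zero_lt_iff.2 hp₁) (zero_lt_iff.2 hp₂)) (zero_lt_iff.2 hp₃)
      have hnum : v ((y₃ - β * x₃) * (y₁ + β * x₁) * (y₂ + β * x₂)
            - (y₁ - β * x₁) * (y₂ - β * x₂) * (y₃ + β * x₃))
          < v (y₁ + β * x₁) * v (y₂ + β * x₂) * v (y₃ + β * x₃) := by
        have h1 := congrArg v key
        rw [map_mul, map_mul, hDm, map_mul, map_mul, hm₁, hm₂] at h1
        have h2' : v ((y₃ - β * x₃) * (y₁ + β * x₁) * (y₂ + β * x₂)
              - (y₁ - β * x₁) * (y₂ - β * x₂) * (y₃ + β * x₃)) * v n ^ 2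
            < v (y₁ + β * x₁) * v (y₂ + β * x₂) * v (y₃ + β * x₃) * v n ^ 2 := by
          rw [h1]
          exact mul_lt_mul_of_pos_left hDd hprod0
        exact lt_of_mul_lt_mul_right h2' zero_le
      have e : uZ β (Point.some x₃ y₃ h₃)
            - uZ β (Point.some x₁ y₁ h₁) * uZ β (Point.some x₂ y₂ h₂)
          = ((y₃ - β * x₃) * (y₁ + β * x₁) * (y₂ + β * x₂)
              - (y₁ - β * x₁) * (y₂ - β * x₂) * (y₃ + β * x₃))
            / ((y₁ + β * x₁) * (y₂ + β * x₂) * (y₃ + β * x₃)) := by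
        rw [uZ_some, uZ_some, uZ_some]
        field_simp
      rw [e, map_div₀, map_mul, map_mul, div_lt_one₀ hprod0]
      exact hnum

/-- Multiples of a point of type `Z`. -/
theorem uZ_nsmul (hW : IsLeg W) (ha : v W.a₂ = 1) (h2 : v 2 = 1) (hb : v W.a₄ < 1)
    (hβ : β ^ 2 = W.a₂) {P : W.Point} (hP : IsZ v P) (k : ℕ) :
    IsZ v (k • P) ∧ v (uZ β (k • P) - uZ β P ^ k) < 1 := by
  induction k with
  | zero =>
    rw [zero_smul, pow_zero, uZ_zero, sub_self, map_zero]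
    exact ⟨trivial, zero_lt_one⟩
  | succ k ih =>
    obtain ⟨hZ, hk⟩ := ih
    obtain ⟨hZ', hadd⟩ := uZ_add v hW ha h2 hb hβ hZ hP
    rw [succ_nsmul, pow_succ]
    refine ⟨hZ', ?_⟩
    have e : uZ β (k • P + P) - uZ β P ^ k * uZ β P
        = (uZ β (k • P + P) - uZ β (k • P) * uZ β P) + (uZ β (k • P) - uZ β P ^ k) * uZ β P := by
      ring
    rw [e]
    refine v.map_add_lt hadd ?_
    rw [map_mul, uZ_val v hW ha h2 hb hβ hP, mul_one]
    exact hk

/-- **The smooth locus of the special fibre has no `p`-torsion**: a point of type `Z` killed by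
a prime `p` with `v p < 1` lies in the kernel of reduction. -/
theorem inE1_of_isZ_of_nsmul (hW : IsLeg W) (ha : v W.a₂ = 1) (h2 : v 2 = 1) (hb : v W.a₄ < 1)
    (hβ : β ^ 2 = W.a₂) {p : ℕ} (hp : p.Prime) (hvp : v (p : K) < 1) {P : W.Point}
    (hP : IsZ v P) (hpP : p • P = 0) : InE1 v P := by
  match P, hP, hpP with
  | .zero, _, _ => exact trivial
  | .some x y h, hP, hpP =>
    show 1 < v x
    have hx : 1 ≤ v x := hP
    rw [← uZ_sub_one_lt_iff v hW ha h2 hb hβ h hx]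
    obtain ⟨-, hk⟩ := uZ_nsmul v hW ha h2 hb hβ (P := Point.some x y h) hP p
    rw [hpP, uZ_zero] at hk
    have hu : v (uZ β (Point.some x y h)) = 1 := uZ_val v hW ha h2 hb hβ hP
    generalize uZ β (Point.some x y h) = u at hk hu
    have hu1 : v (u - 1) ≤ 1 := v.map_sub_le hu.le (map_one v).le
    obtain ⟨r, hr⟩ := exists_add_pow_prime_eq hp (⟨u - 1, hu1⟩ : v.integer) 1
    have hr' := congrArg (Subtype.val) hr
    simp only [Subring.coe_add, Subring.coe_pow, Subring.coe_mul, Subring.coe_one,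
      Subring.coe_natCast, one_pow, mul_one, sub_add_cancel] at hr'
    have hrv : v (r : K) ≤ 1 := r.2
    have e : (u - 1) ^ p = (u ^ p - 1) - (p : K) * (u - 1) * (r : K) := by
      linear_combination -hr'
    by_contra hcon
    have h1 : v (u - 1) = 1 := le_antisymm hu1 (not_lt.mp hcon)
    have h2' : v ((u - 1) ^ p) < 1 := by
      rw [e]
      refine v.map_sub_lt ?_ ?_
      · rw [← Valuation.map_sub_swap]
        exact hk
      · rw [map_mul, map_mul, h1, mul_one]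
        exact lt_of_le_of_lt (mul_le_mul' le_rfl hrv) (by rwa [mul_one])
    rw [map_pow, h1, one_pow] at h2'
    exact lt_irrefl _ h2'

end Points

end Fermat.Agent.TR.ESide.ST
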