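/-
TR / E-side of S44, (E-ST), brick (E0), part 2: counting `p`-torsion through the class function.

Legendre curve `y² = x³ + a x² + b x`, `v a = 1 = v 2`, `v b < 1`, `b = t ^ p ≠ 0`, `v p < 1`.
The class function `cls` of S05 (a homomorphism to `Γ₀ / v(b)^(2ℤ)` with kernel the points of
type `Z`) takes at most `p` values on the `p`-torsion, and the points of type `Z` killed by `p`
lie in the kernel of reduction (`UZero`).  Hence
`#E[p] ≤ p · #(E[p] ∩ E₁)` (`card_torsion_le`).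
-/
import Mathlib
import Fermat.Agent.TR.ESide.ST.UZero

set_option autoImplicit false

namespace Fermat.Agent.TR.ESide.ST

open Fermat.Agent.S05 WeierstrassCurve WeierstrassCurve.Affine

variable {K : Type*} [Field K] {Γ₀ : Type*} [LinearOrderedCommGroupWithZero Γ₀]
variable (v : Valuation K Γ₀) {W : Affine K}

/-- The class function takes values in `(v(b)², 1]`. -/
theorem cls_range (hb : v W.a₄ < 1) (hb0 : W.a₄ ≠ 0) (β : K) (P : W.Point) :
    v W.a₄ ^ 2 < cls v β P ∧ cls v β P ≤ 1 := by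
  have hc0 : 0 < v W.a₄ := zero_lt_iff.2 ((Valuation.ne_zero_iff v).2 hb0)
  have hsq : v W.a₄ ^ 2 < v W.a₄ := by
    rw [pow_two]
    calc v W.a₄ * v W.a₄ < v W.a₄ * 1 := mul_lt_mul_of_pos_left hb hc0
      _ = v W.a₄ := mul_one _
  rcases P with _ | ⟨x, y, h⟩
  · exact ⟨hsq.trans hb, le_rfl⟩
  · simp only [cls]
    split_ifs with h1 h2 h3
    · exact ⟨hsq.trans hb, le_rfl⟩
    · exact ⟨hsq, hb.le⟩
    · exact ⟨hsq.trans (not_le.mp h2), (not_le.mp h1).le⟩
    · have hx0 : 0 < v x := lt_trans hc0 (not_le.mp h2)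
      have hx1 : v x < 1 := not_le.mp h1
      constructor
      · rw [lt_div_iff₀ hx0]
        calc v W.a₄ ^ 2 * v x < v W.a₄ ^ 2 * 1 := mul_lt_mul_of_pos_left hx1 (pow_pos hc0 2)
          _ = _ := mul_one _
      · rw [div_le_one₀ hx0]
        exact (hsq.trans (not_le.mp h2)).le

/-- `cls P = 1` exactly on the points of type `Z`. -/
theorem cls_eq_one_iff (hb : v W.a₄ < 1) (hb0 : W.a₄ ≠ 0) (β : K) (P : W.Point) :
    cls v β P = 1 ↔ IsZ v P := by
  have hc0 : 0 < v W.a₄ := zero_lt_iff.2 ((Valuation.ne_zero_iff v).2 hb0)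
  have hsq : v W.a₄ ^ 2 < v W.a₄ := by
    rw [pow_two]
    calc v W.a₄ * v W.a₄ < v W.a₄ * 1 := mul_lt_mul_of_pos_left hb hc0
      _ = v W.a₄ := mul_one _
  rcases P with _ | ⟨x, y, h⟩
  · exact ⟨fun _ => trivial, fun _ => rfl⟩
  · constructor
    · intro hcls
      show 1 ≤ v x
      by_contra h1
      simp only [cls] at hcls
      rw [if_neg h1] at hcls
      split_ifs at hcls with h2 h3
      · exact hb.ne hcls
      · exact (not_le.mp h1).ne hcls
      · have hx0 : 0 < v x := lt_trans hc0 (not_le.mp h2)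
        rw [div_eq_one_iff_eq hx0.ne'] at hcls
        exact absurd (hsq.trans (not_le.mp h2)) (by rw [hcls]; exact lt_irrefl _)
    · intro hZ
      exact ClsZS.cls_some_Z v h hZ

variable [DecidableEq K]

/-- Points with the same class differ by a point of type `Z`. -/
theorem isZ_sub_of_cls_eq (hW : IsLeg W) (ha : v W.a₂ = 1) (h2 : v 2 = 1) (hb : v W.a₄ < 1)
    (hb0 : W.a₄ ≠ 0) {β : K} (hβ : β ^ 2 = W.a₂) {P Q : W.Point}
    (h : cls v β P = cls v β Q) : IsZ v (P - Q) := by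
  have hc0 : 0 < v W.a₄ := zero_lt_iff.2 ((Valuation.ne_zero_iff v).2 hb0)
  obtain ⟨k, hk⟩ := cls_add v hW ha h2 hb hb0 hβ (P - Q) Q
  rw [sub_add_cancel, h] at hk
  have hQ0 : cls v β Q ≠ 0 := cls_ne_zero v hb0 β Q
  have h1 : cls v β (P - Q) * v W.a₄ ^ (2 * k) = 1 := by
    have h2' : cls v β Q * (cls v β (P - Q) * v W.a₄ ^ (2 * k)) = cls v β Q * 1 := by
      rw [mul_one, ← mul_assoc, mul_comm (cls v β Q) (cls v β (P - Q))]
      exact hk.symm
    exact mul_left_cancel₀ hQ0 h2'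
  have h3 : cls v β (P - Q) = v W.a₄ ^ (-(2 * k)) := by
    rw [zpow_neg]
    exact eq_inv_of_mul_eq_one_left h1
  obtain ⟨hlo, hhi⟩ := cls_range v hb hb0 β (P - Q)
  rw [h3] at hlo hhi
  rw [zpow_le_one_iff_right_of_lt_one₀ hc0 hb] at hhi
  rw [← zpow_ofNat, zpow_lt_zpow_iff_right_of_lt_one₀ hc0 hb] at hlo
  have hk0 : k = 0 := by omega
  rw [hk0, mul_zero, neg_zero, zpow_zero] at h3
  exact (cls_eq_one_iff v hb hb0 β _).1 h3

/-- The classes of the `p`-torsion points: at most `p` values. -/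
theorem cls_torsion (hW : IsLeg W) (ha : v W.a₂ = 1) (h2 : v 2 = 1) (hb : v W.a₄ < 1)
    (hb0 : W.a₄ ≠ 0) {β : K} (hβ : β ^ 2 = W.a₂) {p : ℕ} (hp : p.Prime) {t : K}
    (ht : W.a₄ = t ^ p) {P : W.Point} (hP : p • P = 0) :
    ∃ j : ℕ, j < p ∧ cls v β P = v t ^ (2 * j) := by
  have hc : v W.a₄ ≠ 0 := (Valuation.ne_zero_iff v).mpr hb0
  have hvb : v W.a₄ = v t ^ p := by rw [ht, map_pow]
  have ht0 : v t ≠ 0 := by
    intro h0
    rw [hvb, h0, zero_pow hp.ne_zero] at hc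
    exact hc rfl
  have ht0' : 0 < v t := zero_lt_iff.2 ht0
  have ht1 : v t < 1 := by
    by_contra hcon
    have h1 : 1 ≤ v t ^ p := one_le_pow₀ (not_lt.mp hcon)
    rw [← hvb] at h1
    exact absurd hb (not_lt.mpr h1)
  obtain ⟨k, hk⟩ := cls_nsmul v hW ha h2 hb hb0 hβ p P
  rw [hP] at hk
  have hcls0 : cls v β (0 : W.Point) = 1 := rfl
  rw [hcls0, hvb] at hk
  have hk' : (cls v β P * v t ^ (2 * k)) ^ p = 1 := by
    rw [mul_pow, ← zpow_natCast (v t ^ (2 * k)) p, ← zpow_mul, mul_comm (2 * k) (p : ℤ),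
      zpow_mul, zpow_natCast]
    exact hk.symm
  have hcl : cls v β P * v t ^ (2 * k) = 1 :=
    (pow_eq_one_iff.mp hk').resolve_right hp.ne_zero
  have hcl' : cls v β P = v t ^ (-(2 * k)) := by
    rw [zpow_neg]
    exact eq_inv_of_mul_eq_one_left hcl
  obtain ⟨hlo, hhi⟩ := cls_range v hb hb0 β P
  rw [hcl'] at hhi
  rw [hcl', hvb, ← pow_mul, ← zpow_natCast] at hlo
  rw [zpow_le_one_iff_right_of_lt_one₀ ht0' ht1] at hhi
  rw [zpow_lt_zpow_iff_right_of_lt_one₀ ht0' ht1] at hlo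
  push_cast at hlo
  refine ⟨(-k).toNat, by omega, ?_⟩
  rw [hcl', ← zpow_natCast]
  congr 1
  push_cast
  omega

/-- **The count**: `#E[p] ≤ #(E[p] ∩ E₁) · p`. -/
theorem card_torsion_le (hW : IsLeg W) (ha : v W.a₂ = 1) (h2 : v 2 = 1) (hb : v W.a₄ < 1)
    (hb0 : W.a₄ ≠ 0) {β : K} (hβ : β ^ 2 = W.a₂) {p : ℕ} (hp : p.Prime)
    (hvp : v (p : K) < 1) {t : K} (ht : W.a₄ = t ^ p) (T TZ : Finset W.Point)
    (hT : ∀ P ∈ T, p • P = 0)
    (hTZ : ∀ P : W.Point, p • P = 0 → InE1 v P → P ∈ TZ) : T.card ≤ TZ.card * p := by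
  classical
  let S : Finset Γ₀ := (Finset.range p).image (fun j => v t ^ (2 * j))
  have hf : ∀ P ∈ T, cls v β P ∈ S := by
    intro P hP
    obtain ⟨j, hj, h⟩ := cls_torsion v hW ha h2 hb hb0 hβ hp ht (hT P hP)
    exact Finset.mem_image.2 ⟨j, Finset.mem_range.2 hj, h.symm⟩
  have hfib : ∀ c ∈ S, (T.filter (fun P => cls v β P = c)).card ≤ TZ.card := by
    intro c _
    by_cases hne : (T.filter (fun P => cls v β P = c)).Nonempty
    · obtain ⟨P₀, hP₀⟩ := hne
      rw [Finset.mem_filter] at hP₀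
      refine Finset.card_le_card_of_injOn (fun P => P - P₀) ?_ ?_
      · intro P hP
        have hP' := Finset.mem_filter.1 (Finset.mem_coe.1 hP)
        have htor : p • (P - P₀) = 0 := by
          rw [nsmul_sub, hT P hP'.1, hT P₀ hP₀.1, sub_zero]
        exact Finset.mem_coe.2 (hTZ _ htor (inE1_of_isZ_of_nsmul v hW ha h2 hb hβ hp hvp
          (isZ_sub_of_cls_eq v hW ha h2 hb hb0 hβ (hP'.2.trans hP₀.2.symm)) htor))
      · intro P _ Q _ h
        exact sub_left_injective h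
    · rw [Finset.not_nonempty_iff_eq_empty] at hne
      rw [hne, Finset.card_empty]
      exact Nat.zero_le _
  calc T.card ≤ TZ.card * S.card := Finset.card_le_mul_card_image_of_maps_to hf _ hfib
    _ ≤ TZ.card * p :=
      Nat.mul_le_mul_left _ (Finset.card_image_le.trans (by rw [Finset.card_range]))

end Fermat.Agent.TR.ESide.ST
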