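/-
TR / E-side of S44, (E-ST), brick (E0): the kernel of reduction of a multiplicative integral
Legendre model contains a nonzero `p`-torsion point.

`Wℤ : y² = x³ + a₂ x² + a₄ x` over `ℤ`, `p ∤ a₂`, `p ∣ a₄`, `a₄ = t ^ p ≠ 0`, `p` odd, `A` a
valuation ring of `ℚ̄` over `p`.  The `p`-torsion has `p²` points (`Lib.ECBiquad`), and
`#E[p] ≤ p · #(E[p] ∩ E₁)` (`ST/Count.lean`), so `E[p] ∩ E₁` has at least `p ≥ 2` points.
-/
import Mathlib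
import Fermat.Agent.TR.ESide.ST.Count
import Fermat.Agent.TR.ESide.FreyDeep
import Fermat.Agent.Lib.ECBiquad.Main

set_option autoImplicit false

namespace Fermat.Agent.TR.ESide.ST

open WeierstrassCurve WeierstrassCurve.Affine
open Fermat.Agent.S05 Fermat.Agent.S13.LocP

local notation "Qbar" => AlgebraicClosure ℚ

/-- **(E0), count form**: `p ≤ #(E[p] ∩ E₁)` in the form "every finset containing `E[p] ∩ E₁`
has at least `p` elements". -/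
theorem le_card_tors_inE1 {Wℤ : WeierstrassCurve ℤ}
    (hW : IsLeg (Wℤ.map (Int.castRingHom ℚ) : Affine ℚ)) {p : ℕ}
    (hp : p.Prime) (hp2 : p ≠ 2) (h₂ : ¬ (p : ℤ) ∣ Wℤ.a₂) (h₄ : (p : ℤ) ∣ Wℤ.a₄)
    (h₄0 : Wℤ.a₄ ≠ 0) {t : ℤ} (ht : Wℤ.a₄ = t ^ p)
    (A : ValuationSubring Qbar) (hA : A.LiesOverPrime p)
    (TZ : Finset ((Wℤ.map (Int.castRingHom ℚ) : Affine ℚ)⁄Qbar).Point)
    (hTZ : ∀ R : ((Wℤ.map (Int.castRingHom ℚ) : Affine ℚ)⁄Qbar).Point,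
      p • R = 0 → InE1 A.valuation R → R ∈ TZ) : p ≤ TZ.card := by
  classical
  have hpA : A.valuation ((p : ℕ) : Qbar) < 1 := by
    have : ((p : ℕ) : Qbar) ∈ A.nonunits := hA
    rwa [ValuationSubring.mem_nonunits_iff] at this
  have h2 := val_two_eq_one hp hp2 A hpA
  have hWK : IsLeg ((Wℤ.map (Int.castRingHom ℚ) : Affine ℚ)⁄Qbar) :=
    LocalMult.isLeg_baseChange _ hW
  have ha : A.valuation ((Wℤ.map (Int.castRingHom ℚ) : Affine ℚ)⁄Qbar).a₂ = 1 := by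
    show A.valuation (algebraMap ℚ Qbar (Wℤ.map (Int.castRingHom ℚ) : Affine ℚ).a₂) = 1
    rw [algebraMap_map_a₂]
    exact val_intCast_eq_one A hp hpA h₂
  have hb : A.valuation ((Wℤ.map (Int.castRingHom ℚ) : Affine ℚ)⁄Qbar).a₄ < 1 := by
    show A.valuation (algebraMap ℚ Qbar (Wℤ.map (Int.castRingHom ℚ) : Affine ℚ).a₄) < 1
    rw [algebraMap_map_a₄]
    exact val_intCast_lt_one A hpA h₄
  have hb0 : ((Wℤ.map (Int.castRingHom ℚ) : Affine ℚ)⁄Qbar).a₄ ≠ 0 := by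
    show algebraMap ℚ Qbar (Wℤ.map (Int.castRingHom ℚ) : Affine ℚ).a₄ ≠ 0
    rw [algebraMap_map_a₄]
    exact Int.cast_ne_zero.mpr h₄0
  have ht' : ((Wℤ.map (Int.castRingHom ℚ) : Affine ℚ)⁄Qbar).a₄ = ((t : ℤ) : Qbar) ^ p := by
    show algebraMap ℚ Qbar (Wℤ.map (Int.castRingHom ℚ) : Affine ℚ).a₄ = _
    rw [algebraMap_map_a₄, ht, Int.cast_pow]
  obtain ⟨β, hβ⟩ := IsAlgClosed.exists_pow_nat_eq
    ((Wℤ.map (Int.castRingHom ℚ) : Affine ℚ)⁄Qbar).a₂ (n := 2) (by norm_num)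
  -- the discriminant
  have hΔ : (Wℤ.map (Int.castRingHom ℚ) : Affine ℚ).Δ ≠ 0 := by
    rw [Deep.leg_Δ_eq hW]
    have e2 : (Wℤ.map (Int.castRingHom ℚ) : Affine ℚ).a₂ = ((Wℤ.a₂ : ℤ) : ℚ) := by
      show Int.castRingHom ℚ Wℤ.a₂ = _
      rw [eq_intCast]
    have e4 : (Wℤ.map (Int.castRingHom ℚ) : Affine ℚ).a₄ = ((Wℤ.a₄ : ℤ) : ℚ) := by
      show Int.castRingHom ℚ Wℤ.a₄ = _
      rw [eq_intCast]
    rw [e2, e4]
    have hne : Wℤ.a₂ ^ 2 - 4 * Wℤ.a₄ ≠ 0 := by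
      intro h0
      have hqi : Prime (p : ℤ) := Nat.prime_iff_prime_int.mp hp
      have h1 : (p : ℤ) ∣ Wℤ.a₂ ^ 2 := by
        have : Wℤ.a₂ ^ 2 = 4 * Wℤ.a₄ := by linear_combination h0
        rw [this]
        exact Dvd.dvd.mul_left h₄ _
      exact h₂ (hqi.dvd_of_dvd_pow h1)
    have h16 : ((16 * Wℤ.a₄ ^ 2 * (Wℤ.a₂ ^ 2 - 4 * Wℤ.a₄) : ℤ) : ℚ) ≠ 0 :=
      Int.cast_ne_zero.mpr (mul_ne_zero (mul_ne_zero (by norm_num) (pow_ne_zero 2 h₄0)) hne)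
    intro h0
    apply h16
    push_cast
    exact h0
  -- the `p²` torsion points
  have hcard := Fermat.Agent.Lib.ECBiquad.card_torsionBy_rat
    (Wℤ.map (Int.castRingHom ℚ)) hΔ hp.ne_zero
  have hfin := Fermat.Agent.Lib.ECBiquad.finite_torsionBy_rat
    (Wℤ.map (Int.castRingHom ℚ)) hΔ hp.ne_zero
  letI := Fintype.ofFinite (Submodule.torsionBy ℤ
    ((Wℤ.map (Int.castRingHom ℚ) : Affine ℚ)⁄Qbar).Point (p : ℤ))
  let T : Finset ((Wℤ.map (Int.castRingHom ℚ) : Affine ℚ)⁄Qbar).Point :=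
    (Finset.univ : Finset (Submodule.torsionBy ℤ
      ((Wℤ.map (Int.castRingHom ℚ) : Affine ℚ)⁄Qbar).Point (p : ℤ))).map
      ⟨Subtype.val, Subtype.val_injective⟩
  have hTcard : T.card = p ^ 2 := by
    rw [Finset.card_map, Finset.card_univ, ← Nat.card_eq_fintype_card]
    exact hcard
  have hT : ∀ R ∈ T, p • R = 0 := by
    intro R hR
    obtain ⟨⟨R', hR'⟩, -, rfl⟩ := Finset.mem_map.1 hR
    rw [Submodule.mem_torsionBy_iff, natCast_zsmul] at hR'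
    exact hR'
  have hle := card_torsion_le A.valuation hWK ha h2 hb hb0 hβ hp hpA ht' T TZ hT hTZ
  rw [hTcard, pow_two] at hle
  exact Nat.le_of_mul_le_mul_right hle hp.pos

/-- **(E0)**: a nonzero `p`-torsion point in the kernel of reduction. -/
theorem exists_tors_inE1 {Wℤ : WeierstrassCurve ℤ}
    (hW : IsLeg (Wℤ.map (Int.castRingHom ℚ) : Affine ℚ)) {p : ℕ}
    (hp : p.Prime) (hp2 : p ≠ 2) (h₂ : ¬ (p : ℤ) ∣ Wℤ.a₂) (h₄ : (p : ℤ) ∣ Wℤ.a₄)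
    (h₄0 : Wℤ.a₄ ≠ 0) {t : ℤ} (ht : Wℤ.a₄ = t ^ p)
    (A : ValuationSubring Qbar) (hA : A.LiesOverPrime p) :
    ∃ R : ((Wℤ.map (Int.castRingHom ℚ) : Affine ℚ)⁄Qbar).Point,
      R ≠ 0 ∧ p • R = 0 ∧ InE1 A.valuation R := by
  classical
  by_contra hcon
  have hall : ∀ R : ((Wℤ.map (Int.castRingHom ℚ) : Affine ℚ)⁄Qbar).Point,
      p • R = 0 → InE1 A.valuation R → R ∈ ({0} : Finset _) := by
    intro R hR hRE
    rw [Finset.mem_singleton]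
    by_contra hne
    exact hcon ⟨R, hne, hR, hRE⟩
  have h1 := le_card_tors_inE1 hW hp hp2 h₂ h₄ h₄0 ht A hA {0} hall
  rw [Finset.card_singleton] at h1
  exact absurd hp.one_lt (not_lt.mpr h1)

/-- **(E0)** in the shape consumed by `TR/ESide/Line/Frey.lean` (helper68, #3581). -/
theorem frey_hE0 (P : FreyPackage) (A : ValuationSubring Qbar) (hA : A.LiesOverPrime P.p) :
    ∀ (Wℤ : WeierstrassCurve ℤ) (t : ℤ), IsLeg (Wℤ.map (Int.castRingHom ℚ) : Affine ℚ) →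
      ¬ (P.p : ℤ) ∣ Wℤ.a₂ → (P.p : ℤ) ∣ Wℤ.a₄ → Wℤ.a₄ ≠ 0 → Wℤ.a₄ = t ^ P.p →
      ∃ R : ((Wℤ.map (Int.castRingHom ℚ) : Affine ℚ)⁄Qbar).Point,
        R ≠ 0 ∧ P.p • R = 0 ∧ InE1 A.valuation R := by
  intro Wℤ t hW h₂ h₄ h₄0 ht
  have hp2 : P.p ≠ 2 := by
    have := P.hp5
    omega
  exact exists_tors_inE1 hW P.pp hp2 h₂ h₄ h₄0 ht A hA

end Fermat.Agent.TR.ESide.ST
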