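/-
TR / E-side of S44: **(E-ST)** for the Frey curve.

At `p ∣ abc` the `p`-torsion `E[p]` of the Frey curve has a subgroup `L` of order `p` (the
`p`-torsion of the kernel of reduction of the multiplicative Legendre model, pulled back along the
transfer) such that inertia at `p` acts trivially on `E[p] / L` and through the cyclotomic
character on `L`.

Inputs: `Deep.frey_mult_model` (helper5), `S13.LocP.exists_equivariant_transfer`,
`S13.LocP.sub_inE1_int_mult` ((σ − 1) E[p] ⊂ E₁), `ST/E0.lean` (`p ≤ #(E[p] ∩ E₁)`),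
`ST/Omega.lean` (`#(E[p] ∩ E₁) ≤ p`, cyclotomic action).
-/
import Mathlib
import Fermat.Agent.TR.ESide.ST.E0
import Fermat.Agent.TR.ESide.ST.Omega
import Fermat.Agent.EC.Defs
import Fermat.Agent.S13.Assembly

set_option autoImplicit false

namespace Fermat.Agent.TR.ESide.ST

open WeierstrassCurve WeierstrassCurve.Affine
open Fermat.Agent.S05 Fermat.Agent.S05.E1 Fermat.Agent.S13.LocP Fermat.Agent.TR.FreyPeu
open Fermat.Agent.EC

local notation "Qbar" => AlgebraicClosure ℚ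

/-! ### The integral Legendre model -/

section IntModel

variable {Wℤ : WeierstrassCurve ℤ}

/-- The standing hypotheses of `ST/Omega.lean` for a multiplicative integral Legendre model, and
the square root of `a₂` is fixed by inertia. -/
theorem exists_hyp (hW : IsLeg (Wℤ.map (Int.castRingHom ℚ) : Affine ℚ)) {p : ℕ}
    (hp : p.Prime) (hp2 : p ≠ 2) (h₂ : ¬ (p : ℤ) ∣ Wℤ.a₂) (h₄ : (p : ℤ) ∣ Wℤ.a₄)
    {t : ℤ} (ht : Wℤ.a₄ = t ^ p)
    (A : ValuationSubring Qbar) (hA : A.LiesOverPrime p) :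
    ∃ β : Qbar, Hyp A ((Wℤ.map (Int.castRingHom ℚ) : Affine ℚ)⁄Qbar) β p ∧
      ∀ σ ∈ A.inertiaSubgroupIn ℚ, σ β = β := by
  have hpA : A.valuation ((p : ℕ) : Qbar) < 1 := by
    have : ((p : ℕ) : Qbar) ∈ A.nonunits := hA
    rwa [ValuationSubring.mem_nonunits_iff] at this
  have h2 := val_two_eq_one hp hp2 A hpA
  have hWK : IsLeg ((Wℤ.map (Int.castRingHom ℚ) : Affine ℚ)⁄Qbar) :=
    LocalMult.isLeg_baseChange _ hW
  have ea : ((Wℤ.map (Int.castRingHom ℚ) : Affine ℚ)⁄Qbar).a₂ = (Wℤ.a₂ : Qbar) :=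
    algebraMap_map_a₂ Wℤ
  have eb : ((Wℤ.map (Int.castRingHom ℚ) : Affine ℚ)⁄Qbar).a₄ = (Wℤ.a₄ : Qbar) :=
    algebraMap_map_a₄ Wℤ
  have ha : A.valuation ((Wℤ.map (Int.castRingHom ℚ) : Affine ℚ)⁄Qbar).a₂ = 1 := by
    rw [ea]
    exact val_intCast_eq_one A hp hpA h₂
  have hb : A.valuation ((Wℤ.map (Int.castRingHom ℚ) : Affine ℚ)⁄Qbar).a₄ < 1 := by
    rw [eb]
    exact val_intCast_lt_one A hpA h₄
  obtain ⟨β, hβ⟩ := IsAlgClosed.exists_pow_nat_eq
    ((Wℤ.map (Int.castRingHom ℚ) : Affine ℚ)⁄Qbar).a₂ (n := 2) (by norm_num)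
  have hvβ : A.valuation β = 1 := by
    have h : A.valuation β ^ 2 = 1 ^ 2 := by rw [← map_pow, hβ, ha, one_pow]
    exact (pow_left_inj₀ zero_le zero_le two_ne_zero).mp h
  -- `v a₄ ≤ v(p)^p`
  have hqi : Prime (p : ℤ) := Nat.prime_iff_prime_int.mp hp
  have hpt : (p : ℤ) ∣ t := hqi.dvd_of_dvd_pow (ht ▸ h₄)
  have hvt : A.valuation ((t : ℤ) : Qbar) ≤ A.valuation ((p : ℕ) : Qbar) := by
    obtain ⟨s, rfl⟩ := hpt
    push_cast
    rw [map_mul]
    calc A.valuation ((p : ℕ) : Qbar) * A.valuation ((s : ℤ) : Qbar)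
        ≤ A.valuation ((p : ℕ) : Qbar) * 1 :=
          mul_le_mul' le_rfl ((A.valuation_le_one_iff _).mpr (intCast_mem A s))
      _ = A.valuation ((p : ℕ) : Qbar) := mul_one _
  have hbp : A.valuation ((Wℤ.map (Int.castRingHom ℚ) : Affine ℚ)⁄Qbar).a₄
      ≤ A.valuation ((p : ℕ) : Qbar) ^ p := by
    rw [eb, ht, Int.cast_pow, map_pow]
    exact pow_le_pow_left₀ zero_le hvt p
  refine ⟨β, ⟨hWK, (A.valuation_le_one_iff _).mp ha.le, (A.valuation_le_one_iff _).mp hb.le, h2,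
    hβ, hvβ, hp, hpA, Nat.cast_ne_zero.mpr hp.ne_zero, hbp⟩, fun σ hσ => ?_⟩
  -- `σ β = ± β`, and `-β` is excluded by `v (2 β) = 1`
  have hsq : (σ β) ^ 2 = β ^ 2 := by
    rw [← map_pow, hβ]
    exact σ.commutes _
  have hmul : (σ β - β) * (σ β + β) = 0 := by linear_combination hsq
  rcases mul_eq_zero.mp hmul with h | h
  · exact sub_eq_zero.mp h
  · exfalso
    have h1 := inertia_spec A σ hσ β hvβ.le
    have e : σ β - β = -(2 * β) := by linear_combination h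
    rw [e, Valuation.map_neg, map_mul, h2, hvβ, one_mul] at h1
    exact lt_irrefl _ h1

/-- Inertia preserves the maximal ideal. -/
theorem inertia_val_lt_one (A : ValuationSubring Qbar) {σ : Qbar ≃ₐ[ℚ] Qbar}
    (hσ : σ ∈ A.inertiaSubgroupIn ℚ) (x : Qbar) (hx : A.valuation x < 1) :
    A.valuation (σ x) < 1 := by
  have h1 := inertia_spec A σ hσ x hx.le
  have e : σ x = (σ x - x) + x := by ring
  rw [e]
  exact A.valuation.map_add_lt h1 hx

/-- Inertia acts on the `p`-torsion of the kernel of reduction through the cyclotomic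
character. -/
theorem leg_map_eq_nsmul (hW : IsLeg (Wℤ.map (Int.castRingHom ℚ) : Affine ℚ)) {p : ℕ}
    (hp : p.Prime) (hp2 : p ≠ 2) (h₂ : ¬ (p : ℤ) ∣ Wℤ.a₂) (h₄ : (p : ℤ) ∣ Wℤ.a₄)
    {t : ℤ} (ht : Wℤ.a₄ = t ^ p)
    (A : ValuationSubring Qbar) (hA : A.LiesOverPrime p) {σ : Qbar ≃ₐ[ℚ] Qbar}
    (hσ : σ ∈ A.inertiaSubgroupIn ℚ) (a : ℕ) (ha : ∀ μ : Qbar, μ ^ p = 1 → σ μ = μ ^ a)
    {Q : ((Wℤ.map (Int.castRingHom ℚ) : Affine ℚ)⁄Qbar).Point} (hQ : InE1 A.valuation Q)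
    (hpQ : p • Q = 0) :
    Point.map (W' := (Wℤ.map (Int.castRingHom ℚ) : Affine ℚ)) σ.toAlgHom Q = a • Q := by
  obtain ⟨β, H, hβσ⟩ := exists_hyp hW hp hp2 h₂ h₄ ht A hA
  exact map_eq_nsmul (Wℤ.map (Int.castRingHom ℚ) : Affine ℚ) H σ
    (inertia_val_lt_one A hσ) (hβσ σ hσ) a ha ((inKer_iff_inE1_val A).mpr hQ) hpQ

/-- At most `p` torsion points in the kernel of reduction. -/
theorem leg_card_le (hW : IsLeg (Wℤ.map (Int.castRingHom ℚ) : Affine ℚ)) {p : ℕ}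
    (hp : p.Prime) (hp2 : p ≠ 2) (h₂ : ¬ (p : ℤ) ∣ Wℤ.a₂) (h₄ : (p : ℤ) ∣ Wℤ.a₄)
    {t : ℤ} (ht : Wℤ.a₄ = t ^ p)
    (A : ValuationSubring Qbar) (hA : A.LiesOverPrime p)
    (T : Finset ((Wℤ.map (Int.castRingHom ℚ) : Affine ℚ)⁄Qbar).Point)
    (hT : ∀ Q ∈ T, InE1 A.valuation Q ∧ p • Q = 0) : T.card ≤ p := by
  obtain ⟨β, H, -⟩ := exists_hyp hW hp hp2 h₂ h₄ ht A hA
  exact card_le H T (fun Q hQ => ⟨(inKer_iff_inE1_val A).mpr (hT Q hQ).1, (hT Q hQ).2⟩)

end IntModel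

/-! ### The Frey curve -/

/-- **(E-ST)**: at `p ∣ abc` the `p`-torsion of the Frey curve has a subgroup `L` of order `p`
such that inertia at `p` acts trivially modulo `L` and through the mod `p` cyclotomic character on
`L`.  (This is the body of `Fermat.Agent.TR.Top.TREst`.) -/
theorem frey_est (P : FreyPackage) (hpabc : (P.p : ℤ) ∣ P.a * P.b * P.c)
    (A : ValuationSubring Qbar) (hA : A.LiesOverPrime P.p) :
    ∃ L : AddSubgroup (FreyV P), Nat.card L = P.p ∧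
      (∀ σ ∈ A.inertiaSubgroupIn ℚ, ∀ x : FreyV P, σ • x - x ∈ L) ∧
      (∀ σ ∈ A.inertiaSubgroupIn ℚ, ∀ a : ℕ, (∀ μ : Qbar, μ ^ P.p = 1 → σ μ = μ ^ a) →
        ∀ x ∈ L, σ • x = a • x) := by
  classical
  obtain ⟨Wℤ, r₀, t, x₀, hW, h₂, h₄, h₆, hna₂, hpa₄, ha₄0, ht, -, -⟩ :=
    Deep.frey_mult_model P hpabc
  obtain ⟨φ, hφinj, hφσ⟩ := exists_equivariant_transfer (K := Qbar) (P.freyCurve : Affine ℚ)
    (Wℤ.map (Int.castRingHom ℚ) : Affine ℚ) r₀ rfl rfl rfl hW h₂ h₄ h₆ two_ne_zero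
  have hpp : P.p.Prime := P.pp
  have hp2 : P.p ≠ 2 := by have := P.hp5; omega
  have hpA : A.valuation ((P.p : ℕ) : Qbar) < 1 := by
    have : ((P.p : ℕ) : Qbar) ∈ A.nonunits := hA
    rwa [ValuationSubring.mem_nonunits_iff] at this
  have hWK : IsLeg ((Wℤ.map (Int.castRingHom ℚ) : Affine ℚ)⁄Qbar) :=
    LocalMult.isLeg_baseChange _ hW
  have hva : A.valuation ((Wℤ.map (Int.castRingHom ℚ) : Affine ℚ)⁄Qbar).a₂ ≤ 1 := by
    rw [show ((Wℤ.map (Int.castRingHom ℚ) : Affine ℚ)⁄Qbar).a₂ = (Wℤ.a₂ : Qbar) from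
      algebraMap_map_a₂ Wℤ]
    exact (val_intCast_eq_one A hpp hpA hna₂).le
  have hvb : A.valuation ((Wℤ.map (Int.castRingHom ℚ) : Affine ℚ)⁄Qbar).a₄ ≤ 1 := by
    rw [show ((Wℤ.map (Int.castRingHom ℚ) : Affine ℚ)⁄Qbar).a₄ = (Wℤ.a₄ : Qbar) from
      algebraMap_map_a₄ Wℤ]
    exact (val_intCast_lt_one A hpA hpa₄).le
  -- the transfer on `E[p]`
  have hψp : ∀ x : FreyV P, P.p • φ x.1 = 0 := fun x => by
    rw [← map_nsmul, freyV_nsmul_coe, map_zero]
  -- the line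
  let L : AddSubgroup (FreyV P) :=
    { carrier := {x | InE1 A.valuation (φ x.1)}
      zero_mem' := by
        show InE1 A.valuation (φ ((0 : FreyV P) : _))
        rw [Submodule.coe_zero, map_zero]
        trivial
      add_mem' := fun {x y} hx hy => by
        show InE1 A.valuation (φ ((x + y : FreyV P) : _))
        rw [Submodule.coe_add, map_add]
        exact inE1_add A.valuation hWK hva hvb hx hy
      neg_mem' := fun {x} hx => by
        show InE1 A.valuation (φ ((-x : FreyV P) : _))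
        rw [Submodule.coe_neg, map_neg]
        exact inE1_neg A.valuation hx }
  have hL : ∀ x : FreyV P, x ∈ L ↔ InE1 A.valuation (φ x.1) := fun _ => Iff.rfl
  refine ⟨L, ?_, ?_, ?_⟩
  · -- the cardinality
    have hΔE := Fermat.Agent.S13.Assembly.freyCurve_Δ_ne_zero P
    have hfinV : Finite (FreyV P) :=
      Fermat.Agent.Lib.ECBiquad.finite_torsionBy_rat P.freyCurve hΔE hpp.ne_zero
    have hcardV : Nat.card (FreyV P) = P.p ^ 2 :=
      Fermat.Agent.Lib.ECBiquad.card_torsionBy_rat P.freyCurve hΔE hpp.ne_zero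
    let _ : Fintype L := Fintype.ofFinite L
    let T : Finset ((Wℤ.map (Int.castRingHom ℚ) : Affine ℚ)⁄Qbar).Point :=
      (Finset.univ : Finset L).image (fun x => φ x.1.1)
    have hinj : Function.Injective (fun x : L => φ x.1.1) := fun x y hxy =>
      Subtype.ext (Subtype.ext (hφinj hxy))
    have hTcard : T.card = Nat.card L := by
      rw [Finset.card_image_of_injective _ hinj, Finset.card_univ, Nat.card_eq_fintype_card]
    have hTmem : ∀ Q ∈ T, InE1 A.valuation Q ∧ P.p • Q = 0 := by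
      intro Q hQ
      obtain ⟨x, -, rfl⟩ := Finset.mem_image.1 hQ
      exact ⟨x.2, hψp x.1⟩
    rw [← hTcard]
    refine le_antisymm (leg_card_le hW hpp hp2 hna₂ hpa₄ ht A hA T hTmem) ?_
    refine le_card_tors_inE1 hW hpp hp2 hna₂ hpa₄ ha₄0 ht A hA T (fun R hR hRE => ?_)
    -- surjectivity of the transfer on `p`-torsion
    have hΔW : (Wℤ.map (Int.castRingHom ℚ) : Affine ℚ).Δ ≠ 0 := by
      rw [Deep.leg_Δ_eq hW]
      have e2 : (Wℤ.map (Int.castRingHom ℚ) : Affine ℚ).a₂ = ((Wℤ.a₂ : ℤ) : ℚ) := by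
        show Int.castRingHom ℚ Wℤ.a₂ = _
        rw [eq_intCast]
      have e4 : (Wℤ.map (Int.castRingHom ℚ) : Affine ℚ).a₄ = ((Wℤ.a₄ : ℤ) : ℚ) := by
        show Int.castRingHom ℚ Wℤ.a₄ = _
        rw [eq_intCast]
      rw [e2, e4]
      have hne : Wℤ.a₂ ^ 2 - 4 * Wℤ.a₄ ≠ 0 := by
        intro h0
        have hqi : Prime (P.p : ℤ) := Nat.prime_iff_prime_int.mp hpp
        have h1 : (P.p : ℤ) ∣ Wℤ.a₂ ^ 2 := by
          have : Wℤ.a₂ ^ 2 = 4 * Wℤ.a₄ := by linear_combination h0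
          rw [this]
          exact Dvd.dvd.mul_left hpa₄ _
        exact hna₂ (hqi.dvd_of_dvd_pow h1)
      have h16 : ((16 * Wℤ.a₄ ^ 2 * (Wℤ.a₂ ^ 2 - 4 * Wℤ.a₄) : ℤ) : ℚ) ≠ 0 :=
        Int.cast_ne_zero.mpr (mul_ne_zero (mul_ne_zero (by norm_num) (pow_ne_zero 2 ha₄0)) hne)
      intro h0
      apply h16
      push_cast
      exact h0
    have hfinW : Finite (Submodule.torsionBy ℤ
        ((Wℤ.map (Int.castRingHom ℚ) : Affine ℚ)⁄Qbar).Point (P.p : ℤ)) :=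
      Fermat.Agent.Lib.ECBiquad.finite_torsionBy_rat (Wℤ.map (Int.castRingHom ℚ)) hΔW hpp.ne_zero
    have hcardW : Nat.card (Submodule.torsionBy ℤ
        ((Wℤ.map (Int.castRingHom ℚ) : Affine ℚ)⁄Qbar).Point (P.p : ℤ)) = P.p ^ 2 :=
      Fermat.Agent.Lib.ECBiquad.card_torsionBy_rat (Wℤ.map (Int.castRingHom ℚ)) hΔW hpp.ne_zero
    let ψ : FreyV P → Submodule.torsionBy ℤ
        ((Wℤ.map (Int.castRingHom ℚ) : Affine ℚ)⁄Qbar).Point (P.p : ℤ) := fun x =>
      ⟨φ x.1, by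
        rw [Submodule.mem_torsionBy_iff, natCast_zsmul]
        exact hψp x⟩
    have hψinj : Function.Injective ψ := fun x y hxy =>
      Subtype.ext (hφinj (congrArg Subtype.val hxy))
    have hψbij : Function.Bijective ψ :=
      hψinj.bijective_of_nat_card_le (by rw [hcardV, hcardW])
    obtain ⟨x, hx⟩ := hψbij.2 ⟨R, by
      rw [Submodule.mem_torsionBy_iff, natCast_zsmul]
      exact hR⟩
    have hxR : φ x.1 = R := congrArg Subtype.val hx
    have hxL : x ∈ L := by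
      rw [hL, hxR]
      exact hRE
    exact Finset.mem_image.2 ⟨⟨x, hxL⟩, Finset.mem_univ _, hxR⟩
  · -- inertia acts trivially modulo `L`
    intro σ hσ x
    rw [hL]
    have e : φ ((σ • x - x : FreyV P) : _)
        = -(φ x.1 - Point.map (W' := (Wℤ.map (Int.castRingHom ℚ) : Affine ℚ)) σ.toAlgHom
          (φ x.1)) := by
      rw [Submodule.coe_sub, map_sub, freyV_smul_coe, hφσ, neg_sub]
    rw [e]
    refine inE1_neg A.valuation ?_
    refine sub_inE1_int_mult hW hpp hp2 hna₂ hpa₄ ha₄0 ht A hA σ hσ (φ x.1) ?_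
    rw [natCast_zsmul]
    exact hψp x
  · -- inertia acts on `L` through the cyclotomic character
    intro σ hσ a ha x hx
    apply Subtype.ext
    apply hφinj
    rw [freyV_smul_coe, hφσ, Submodule.coe_smul_of_tower, map_nsmul]
    exact leg_map_eq_nsmul hW hpp hp2 hna₂ hpa₄ ht A hA hσ a ha ((hL x).mp hx) (hψp x)

end Fermat.Agent.TR.ESide.ST
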